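import Fermat.Agent.S56.GW.LEC.Kum2.Push
import Fermat.Agent.S56.GW.EC.Sh.HS

/-!
# S56, [GW-LEC], cell [LEC-KUM2] (helper7; prefix `s56lk2_`): the `H²` half of the local base case

`G` a group with level system `L`, `V ⊴ G` open of index prime to `p`, `N` a finite `p`-torsion
`G`-module with trivial `V`-action, `Z` a `G`-module of order `p` with trivial `V`-action such that
`lvH2 (V, Z)` has order `p` and trivial conjugation action.  Then
`lvH2 (G, N) ≃ Hom_G(Z, N)` (`s56lk2_equiv`, `s56lk2_main`).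
-/

set_option autoImplicit false

namespace Fermat.Agent.S56

open Fermat.Agent.S55 groupCohomology

variable {G : Type*} [Group G]

/-- The hypotheses of [LEC-KUM2]. -/
structure s56lk2_Setting (L : LevelSys G) (p : ℕ) (V : Subgroup G) [V.Normal]
    (Z : Type*) [AddCommGroup Z] [DistribMulAction G Z]
    (N : Type*) [AddCommGroup N] [DistribMulAction G N] : Prop where
  prime : p.Prime
  isOpen : ∃ W ∈ L.levels, W ≤ V
  ndvd : ¬ p ∣ V.index
  finN : Finite N
  torsN : ∀ n : N, p • n = 0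
  trivN : ∀ v ∈ V, ∀ n : N, v • n = n
  cardZ : Nat.card Z = p
  trivZ : ∀ v ∈ V, ∀ z : Z, v • z = z
  br : Nat.card (lvH2 (s56esh_LU L V) Z) = p
  conj : ∀ (g : G) (y : lvH2 (s56esh_LU L V) Z), (s56esh_conjV L V Z g).H2 y = y

section

variable {L : LevelSys G} {p : ℕ} {V : Subgroup G} [V.Normal]
  {Z : Type*} [AddCommGroup Z] [DistribMulAction G Z]
  {N : Type*} [AddCommGroup N] [DistribMulAction G N]

omit [V.Normal] in
/-- Additive maps between modules with trivial `V`-action are `V`-equivariant. -/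
theorem s56lk2_eqv_of_triv {A : Type*} [AddCommGroup A] [DistribMulAction G A]
    {B : Type*} [AddCommGroup B] [DistribMulAction G B]
    (hA : ∀ v ∈ V, ∀ a : A, v • a = a) (hB : ∀ v ∈ V, ∀ b : B, v • b = b) (φ : A →+ B) :
    s56lk2_Eqv ↥V φ := by
  intro v a
  show φ ((v : G) • a) = (v : G) • φ a
  rw [hA v v.2, hB v v.2]

/-- The conjugate `g m g⁻¹` of an additive map. -/
def s56lk2_conjHom (g : G) (m : Z →+ N) : Z →+ N :=
  ((DistribSMul.toAddMonoidHom N g).comp m).comp (DistribSMul.toAddMonoidHom Z g⁻¹)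

@[simp] theorem s56lk2_conjHom_apply (g : G) (m : Z →+ N) (z : Z) :
    s56lk2_conjHom g m z = g • m (g⁻¹ • z) := rfl

theorem s56lk2_equivariant_iff (m : Z →+ N) :
    (∀ (g : G) (z : Z), m (g • z) = g • m z) ↔ ∀ g : G, s56lk2_conjHom g m = m := by
  constructor
  · intro h g
    ext z
    rw [s56lk2_conjHom_apply, h, smul_inv_smul]
  · intro h g z
    have := congrArg (fun f : Z →+ N => f (g • z)) (h g)
    simp only [s56lk2_conjHom_apply, inv_smul_smul] at this
    exact this.symm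

variable (S : s56lk2_Setting L p V Z N)
include S

theorem s56lk2_smooth : L.IsSmooth N := by
  intro n
  obtain ⟨W, hW, hWV⟩ := S.isOpen
  exact ⟨W, hW, fun u hu => S.trivN u (hWV hu) n⟩

theorem s56lk2_torsZ (z : Z) : p • z = 0 := by
  rw [← S.cardZ]
  exact card_nsmul_eq_zero'

/-- `Θ_{y₀} : Hom(Z, N) → lvH2 (V, N)`, `m ↦ m_* y₀`. -/
def s56lk2_Theta (y₀ : lvH2 (s56esh_LU L V) Z) : (Z →+ N) →+ lvH2 (s56esh_LU L V) N :=
  AddMonoidHom.mk'
    (fun m => s56lk2_push (s56esh_LU L V) m (s56lk2_eqv_of_triv S.trivZ S.trivN m) y₀)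
    (fun m m' => s56lk2_push_add (s56esh_LU L V) m m' _ _ y₀)

theorem s56lk2_Theta_apply (y₀ : lvH2 (s56esh_LU L V) Z) (m : Z →+ N) :
    s56lk2_Theta S y₀ m =
      s56lk2_push (s56esh_LU L V) m (s56lk2_eqv_of_triv S.trivZ S.trivN m) y₀ := rfl

theorem s56lk2_Theta_injective {y₀ : lvH2 (s56esh_LU L V) Z} (hy₀ : y₀ ≠ 0) :
    Function.Injective (s56lk2_Theta S y₀) := by
  haveI := S.finN
  rw [injective_iff_map_eq_zero]
  intro m hm
  obtain ⟨d, inj, prj, hdec⟩ := s56lk2_decomp S.prime S.torsN (Z := Z) S.cardZ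
  obtain ⟨-, hgen2⟩ := s56lk2_gen S.prime S.br hy₀
  have hprj : ∀ i : Fin d, ∀ z : Z, prj i (m z) = 0 := by
    intro i z
    obtain ⟨a, ha⟩ := s56lk2_end_scalar S.prime S.cardZ ((prj i).comp m)
    have hEq : (prj i).comp m = a • AddMonoidHom.id Z := by
      ext z
      exact ha z
    have h1 : s56lk2_push (s56esh_LU L V) ((prj i).comp m)
        (s56lk2_eqv_of_triv S.trivZ S.trivZ _) y₀ = 0 := by
      have := s56lk2_push_comp (s56esh_LU L V) m (prj i)
        (s56lk2_eqv_of_triv S.trivZ S.trivN m) (s56lk2_eqv_of_triv S.trivN S.trivZ (prj i)) y₀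
      rw [← s56lk2_Theta_apply S y₀ m, hm, map_zero] at this
      exact this
    have h2 : a • y₀ = 0 := by
      rw [s56lk2_push_congr (s56esh_LU L V) hEq _
        (s56lk2_eqv_nsmul s56lk2_eqv_id a) y₀,
        s56lk2_push_nsmul (s56esh_LU L V) (AddMonoidHom.id Z) s56lk2_eqv_id a y₀,
        s56lk2_push_id] at h1
      exact h1
    obtain ⟨k, rfl⟩ := hgen2 a h2
    have := ha z
    rw [AddMonoidHom.comp_apply] at this
    rw [this, mul_smul, s56lk2_torsZ S]
  ext z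
  rw [← hdec (m z)]
  simp [hprj]

theorem s56lk2_Theta_surjective {y₀ : lvH2 (s56esh_LU L V) Z} (hy₀ : y₀ ≠ 0) :
    Function.Surjective (s56lk2_Theta S y₀) := by
  haveI := S.finN
  intro y
  obtain ⟨d, inj, prj, hdec⟩ := s56lk2_decomp S.prime S.torsN (Z := Z) S.cardZ
  obtain ⟨hgen1, -⟩ := s56lk2_gen S.prime S.br hy₀
  have hZN := fun φ : Z →+ N => s56lk2_eqv_of_triv (V := V) S.trivZ S.trivN φ
  have hNZ := fun φ : N →+ Z => s56lk2_eqv_of_triv (V := V) S.trivN S.trivZ φ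
  have hNN := fun φ : N →+ N => s56lk2_eqv_of_triv (V := V) S.trivN S.trivN φ
  -- the coordinates of `y`
  choose a ha using fun i : Fin d => hgen1 (s56lk2_push (s56esh_LU L V) (prj i) (hNZ _) y)
  refine ⟨∑ i, a i • inj i, ?_⟩
  have hid : ∑ i, (inj i).comp (prj i) = AddMonoidHom.id N := by
    ext n
    simp only [AddMonoidHom.coe_finsetSum, Finset.sum_apply, AddMonoidHom.comp_apply,
      AddMonoidHom.id_apply]
    exact hdec n
  have h1 : y = ∑ i, s56lk2_push (s56esh_LU L V) ((inj i).comp (prj i)) (hNN _) y := by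
    rw [← s56lk2_push_sum (s56esh_LU L V) Finset.univ (fun i => (inj i).comp (prj i))
      (fun i => hNN _) y]
    rw [s56lk2_push_congr (s56esh_LU L V) hid _ s56lk2_eqv_id y, s56lk2_push_id]
  rw [map_sum, h1]
  refine Finset.sum_congr rfl fun i _ => ?_
  rw [map_nsmul, s56lk2_Theta_apply]
  have h2 := s56lk2_push_comp (s56esh_LU L V) (prj i) (inj i) (hNZ _) (hZN _) y
  rw [h2, ha i, map_nsmul]

/-- Conjugation and `Θ`. -/
theorem s56lk2_conj_Theta (y₀ : lvH2 (s56esh_LU L V) Z) (g : G) (m : Z →+ N) :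
    (s56esh_conjV L V N g).H2 (s56lk2_Theta S y₀ m) = s56lk2_Theta S y₀ (s56lk2_conjHom g m) := by
  have hm := s56lk2_eqv_of_triv (V := V) S.trivZ S.trivN m
  have hm' := s56lk2_eqv_of_triv (V := V) S.trivZ S.trivN (s56lk2_conjHom g m)
  have key : (s56esh_conjV L V N g).comp (LvMor.ofCoeff (s56esh_LU L V) m hm) =
      (LvMor.ofCoeff (s56esh_LU L V) (s56lk2_conjHom g m) hm').comp (s56esh_conjV L V Z g) := by
    apply s56esh_LvMor_ext
    · exact MonoidHom.ext fun _ => rfl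
    · ext z
      show g • m z = g • m (g⁻¹ • g • z)
      rw [inv_smul_smul]
  have h1 := LvMor.H2_comp (s56esh_conjV L V N g) (LvMor.ofCoeff (s56esh_LU L V) m hm) y₀
  have h2 := LvMor.H2_comp (LvMor.ofCoeff (s56esh_LU L V) (s56lk2_conjHom g m) hm')
    (s56esh_conjV L V Z g) y₀
  rw [key] at h1
  rw [h2, S.conj g y₀] at h1
  exact h1.symm

/-- The invariants of `lvH2 (V, N)`. -/
def s56lk2_Inv (L : LevelSys G) (V : Subgroup G) [V.Normal]
    (N : Type*) [AddCommGroup N] [DistribMulAction G N] : Type _ :=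
  {y : lvH2 (s56esh_LU L V) N // ∀ g : G, (s56esh_conjV L V N g).H2 y = y}

omit S [V.Normal] in
theorem s56lk2_exists_y0 (hp : p.Prime) (hbr : Nat.card (lvH2 (s56esh_LU L V) Z) = p) :
    ∃ y₀ : lvH2 (s56esh_LU L V) Z, y₀ ≠ 0 := by
  have hfin : Finite (lvH2 (s56esh_LU L V) Z) :=
    Nat.finite_of_card_ne_zero (by rw [hbr]; exact hp.ne_zero)
  have hnt : Nontrivial (lvH2 (s56esh_LU L V) Z) :=
    Finite.one_lt_card_iff_nontrivial.mp (by rw [hbr]; exact hp.one_lt)
  exact exists_ne 0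

/-- `lvH2 (G, N) ≃ lvH2 (V, N)^G` (helper16's `p'`-Hochschild–Serre). -/
noncomputable def s56lk2_equivInv : lvH2 L N ≃ s56lk2_Inv L V N := by
  have hs := s56esh_hs_H2 (L := L) (V := V) (X := N) S.isOpen (s56lk2_smooth S) S.prime
    S.torsN S.ndvd
  refine Equiv.ofBijective
    (fun z => ⟨(s56esh_res L V N).H2 z, (hs.2 _).mp ⟨z, rfl⟩⟩) ⟨?_, ?_⟩
  · intro z z' h
    exact hs.1 (congrArg Subtype.val h)
  · rintro ⟨y, hy⟩
    obtain ⟨z, hz⟩ := (hs.2 y).mpr hy
    exact ⟨z, Subtype.ext hz⟩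

/-- `Hom_G(Z, N) ≃ lvH2 (V, N)^G` via `Θ`. -/
noncomputable def s56lk2_equivHom {y₀ : lvH2 (s56esh_LU L V) Z} (hy₀ : y₀ ≠ 0) :
    {m : Z →+ N // ∀ (g : G) (z : Z), m (g • z) = g • m z} ≃ s56lk2_Inv L V N := by
  have hinj := s56lk2_Theta_injective S hy₀
  have hsurj := s56lk2_Theta_surjective S hy₀
  refine Equiv.ofBijective
    (fun m => ⟨s56lk2_Theta S y₀ m.1, fun g => ?_⟩) ⟨?_, ?_⟩
  · rw [s56lk2_conj_Theta S y₀ g m.1, ((s56lk2_equivariant_iff m.1).mp m.2) g]
  · intro m m' h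
    exact Subtype.ext (hinj (congrArg Subtype.val h))
  · rintro ⟨y, hy⟩
    obtain ⟨m, rfl⟩ := hsurj y
    refine ⟨⟨m, (s56lk2_equivariant_iff m).mpr fun g => ?_⟩, rfl⟩
    apply hinj
    rw [← s56lk2_conj_Theta S y₀ g m]
    exact hy g

/-- **[LEC-KUM2]**: `lvH2 (G, N) ≃ Hom_G(Z, N)`. -/
noncomputable def s56lk2_equiv :
    lvH2 L N ≃ {m : Z →+ N // ∀ (g : G) (z : Z), m (g • z) = g • m z} :=
  (s56lk2_equivInv S).trans
    (s56lk2_equivHom S (s56lk2_exists_y0 S.prime S.br).choose_spec).symm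

/-- **[LEC-KUM2]**, cardinality form. -/
theorem s56lk2_main : Nat.card (lvH2 L N) =
    Nat.card {m : Z →+ N // ∀ (g : G) (z : Z), m (g • z) = g • m z} :=
  Nat.card_congr (s56lk2_equiv S)

/-- Finiteness of `lvH2 (G, N)`. -/
theorem s56lk2_finite : Finite (lvH2 L N) := by
  haveI := S.finN
  haveI : Finite Z := Nat.finite_of_card_ne_zero (by rw [S.cardZ]; exact S.prime.ne_zero)
  haveI : Finite (Z →+ N) := Finite.of_injective (fun m : Z →+ N => (m : Z → N))
    DFunLike.coe_injective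
  exact Finite.of_equiv _ (s56lk2_equiv S).symm

end

end Fermat.Agent.S56
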