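import Fermat.Agent.S56.GW.LEC.Seams
import Fermat.Agent.S56.GW.LEC.Kum2.Main

/-!
# S56, [GW-LEC]: `s56l_BR_stmt → s56l_BaseH2_stmt` (helper7; prefix `s56lk2_`)

Wiring of [LEC-KUM2] (`s56lk2_main`, `s56lk2_finite`) into the seam `s56l_BaseH2_stmt` of
`GW/LEC/Seams.lean`: `G := ↥U`, `L := s56esh_LU (tl_levelsLoc q) U`, `V := W.subgroupOf U`,
`Z := ↥(s56l_mu p q)`.
-/

set_option autoImplicit false

namespace Fermat.Agent.S56

open Fermat.Agent.S55 ExtCitation

/-- Equivariant additive maps are the invariants of `LvHom`. -/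
def s56lk2_homEquiv (G : Type*) [Group G] (Z N : Type*) [AddCommGroup Z] [DistribMulAction G Z]
    [AddCommGroup N] [DistribMulAction G N] :
    {m : Z →+ N // ∀ (g : G) (z : Z), m (g • z) = g • m z} ≃ ↥(lvH0 (G := G) (LvHom Z N)) where
  toFun m := ⟨LvHom.of m.1, (LvHom.mem_lvH0_iff _).2 m.2⟩
  invFun φ := ⟨LvHom.toHom φ.1, (LvHom.mem_lvH0_iff _).1 φ.2⟩
  left_inv _ := rfl
  right_inv _ := rfl

/-- **[LEC-BASEH2]** from [LEC-H2] (via [LEC-KUM2]). -/
theorem s56lk2_baseH2 (hBR : s56l_BR_stmt) : s56l_BaseH2_stmt := by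
  intro p _ _ q W U hWU N _ _ hN
  have := hWU.normal
  obtain ⟨hbr, hconj⟩ := hBR p q W U hWU
  have S : s56lk2_Setting (s56esh_LU (tl_levelsLoc q) U) p (W.subgroupOf U) ↥(s56l_mu p q) N :=
    { prime := Fact.out
      isOpen := by
        obtain ⟨V₀, hV₀, hle⟩ := hWU.level
        exact ⟨V₀.comap U.subtype, ⟨V₀, hV₀, rfl⟩, fun u hu => hle hu⟩
      ndvd := hWU.index
      finN := hN.finite
      torsN := hN.tors
      trivN := fun v hv n => hN.triv v hv n
      cardZ := s56l_mu_card p q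
      trivZ := fun v hv z => hWU.mu (v : primeLocalGaloisGroup q) hv z
      br := hbr
      conj := hconj }
  exact ⟨s56lk2_finite S,
    (s56lk2_main S).trans (Nat.card_congr (s56lk2_homEquiv ↥U ↥(s56l_mu p q) N))⟩

end Fermat.Agent.S56
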