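import Fermat.Agent.S56.GW.LEC.Kum.DD
import Fermat.Agent.S55.Level.Cohomology

/-!
# S56, [GW-LEC], cell [LEC-KUM2] (helper7; prefix `s56lk2_`): push-forward on `lvH2`

* `s56lk2_push` : the map `lvH2 L A → lvH2 L B` induced by an equivariant `φ : A →+ B`, and its
  additivity in `φ`, compatibility with composition;
* groups of prime order: `s56lk2_gen`; endomorphisms of a group of prime order are scalars;
* `s56lk2_decomp` : a finite elementary abelian `p`-group `N` is a finite biproduct of copies of a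
  group `Z` of order `p`: `∑ i, inj i (prj i n) = n`.
-/

set_option autoImplicit false

namespace Fermat.Agent.S56

open Fermat.Agent.S55 groupCohomology

section Push

variable {H : Type*} [Group H] (LH : LevelSys H)
  {A : Type*} [AddCommGroup A] [DistribMulAction H A]
  {B : Type*} [AddCommGroup B] [DistribMulAction H B]
  {C : Type*} [AddCommGroup C] [DistribMulAction H C]

/-- Equivariance. -/
def s56lk2_Eqv (H : Type*) [Group H] {A : Type*} [AddCommGroup A] [DistribMulAction H A]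
    {B : Type*} [AddCommGroup B] [DistribMulAction H B] (φ : A →+ B) : Prop :=
  ∀ (h : H) (a : A), φ (h • a) = h • φ a

theorem s56lk2_eqv_add {φ ψ : A →+ B} (hφ : s56lk2_Eqv H φ) (hψ : s56lk2_Eqv H ψ) :
    s56lk2_Eqv H (φ + ψ) := by
  intro h a
  simp only [AddMonoidHom.add_apply, hφ h a, hψ h a, smul_add]

theorem s56lk2_eqv_zero : s56lk2_Eqv H (0 : A →+ B) := by
  intro h a
  simp

theorem s56lk2_eqv_nsmul {φ : A →+ B} (hφ : s56lk2_Eqv H φ) (n : ℕ) :
    s56lk2_Eqv H (n • φ) := by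
  intro h a
  show n • φ (h • a) = h • (n • φ a)
  rw [hφ h a, smul_comm]

theorem s56lk2_eqv_comp {φ : A →+ B} {ψ : B →+ C} (hφ : s56lk2_Eqv H φ)
    (hψ : s56lk2_Eqv H ψ) : s56lk2_Eqv H (ψ.comp φ) := by
  intro h a
  simp only [AddMonoidHom.comp_apply, hφ h a, hψ h (φ a)]

theorem s56lk2_eqv_id : s56lk2_Eqv H (AddMonoidHom.id A) := fun _ _ => rfl

theorem s56lk2_eqv_sum {ι : Type*} (s : Finset ι) (φ : ι → (A →+ B))
    (hφ : ∀ i ∈ s, s56lk2_Eqv H (φ i)) : s56lk2_Eqv H (∑ i ∈ s, φ i) := by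
  classical
  induction s using Finset.induction_on with
  | empty => simpa using s56lk2_eqv_zero (H := H) (A := A) (B := B)
  | insert a s ha ih =>
    rw [Finset.sum_insert ha]
    exact s56lk2_eqv_add (hφ a (Finset.mem_insert_self a s))
      (ih fun i hi => hφ i (Finset.mem_insert_of_mem hi))

/-- The push-forward on `lvH2`. -/
def s56lk2_push (φ : A →+ B) (hφ : s56lk2_Eqv H φ) : lvH2 LH A →+ lvH2 LH B :=
  (LvMor.ofCoeff LH φ hφ).H2

theorem s56lk2_push_mk (φ : A →+ B) (hφ : s56lk2_Eqv H φ) (c : lvZ2 LH A) :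
    s56lk2_push LH φ hφ (lvH2mk LH A c) = lvH2mk LH B ((LvMor.ofCoeff LH φ hφ).Z2 c) := rfl

theorem s56lk2_push_add (φ ψ : A →+ B) (hφ : s56lk2_Eqv H φ) (hψ : s56lk2_Eqv H ψ)
    (y : lvH2 LH A) :
    s56lk2_push LH (φ + ψ) (s56lk2_eqv_add hφ hψ) y =
      s56lk2_push LH φ hφ y + s56lk2_push LH ψ hψ y := by
  obtain ⟨c, rfl⟩ := lvH2mk_surjective y
  rw [s56lk2_push_mk, s56lk2_push_mk, s56lk2_push_mk, ← map_add]
  congr 1

theorem s56lk2_push_zero (y : lvH2 LH A) :
    s56lk2_push LH (0 : A →+ B) s56lk2_eqv_zero y = 0 := by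
  obtain ⟨c, rfl⟩ := lvH2mk_surjective y
  rw [s56lk2_push_mk]
  have : (LvMor.ofCoeff LH (0 : A →+ B) s56lk2_eqv_zero).Z2 c = 0 := by
    apply Subtype.ext
    funext x
    rfl
  rw [this, map_zero]

theorem s56lk2_push_congr {φ ψ : A →+ B} (h : φ = ψ) (hφ : s56lk2_Eqv H φ)
    (hψ : s56lk2_Eqv H ψ) (y : lvH2 LH A) :
    s56lk2_push LH φ hφ y = s56lk2_push LH ψ hψ y := by
  subst h
  rfl

theorem s56lk2_push_nsmul (φ : A →+ B) (hφ : s56lk2_Eqv H φ) (n : ℕ) (y : lvH2 LH A) :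
    s56lk2_push LH (n • φ) (s56lk2_eqv_nsmul hφ n) y = n • s56lk2_push LH φ hφ y := by
  induction n with
  | zero =>
    refine (s56lk2_push_congr LH (zero_smul ℕ φ) _ s56lk2_eqv_zero y).trans ?_
    rw [s56lk2_push_zero]
    simp
  | succ n ih =>
    refine (s56lk2_push_congr LH (succ_nsmul φ n) _
      (s56lk2_eqv_add (s56lk2_eqv_nsmul hφ n) hφ) y).trans ?_
    rw [s56lk2_push_add LH _ _ (s56lk2_eqv_nsmul hφ n) hφ, ih, succ_nsmul]

theorem s56lk2_push_sum {ι : Type*} (s : Finset ι) (φ : ι → (A →+ B))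
    (hφ : ∀ i, s56lk2_Eqv H (φ i)) (y : lvH2 LH A) :
    s56lk2_push LH (∑ i ∈ s, φ i) (s56lk2_eqv_sum s φ fun i _ => hφ i) y =
      ∑ i ∈ s, s56lk2_push LH (φ i) (hφ i) y := by
  classical
  induction s using Finset.induction_on with
  | empty =>
    refine (s56lk2_push_congr LH Finset.sum_empty _ s56lk2_eqv_zero y).trans ?_
    rw [s56lk2_push_zero, Finset.sum_empty]
  | insert a s ha ih =>
    refine (s56lk2_push_congr LH (Finset.sum_insert ha) _
      (s56lk2_eqv_add (hφ a) (s56lk2_eqv_sum s φ fun i _ => hφ i)) y).trans ?_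
    rw [s56lk2_push_add LH _ _ (hφ a) (s56lk2_eqv_sum s φ fun i _ => hφ i), ih,
      Finset.sum_insert ha]

theorem s56lk2_push_comp (φ : A →+ B) (ψ : B →+ C) (hφ : s56lk2_Eqv H φ)
    (hψ : s56lk2_Eqv H ψ) (y : lvH2 LH A) :
    s56lk2_push LH (ψ.comp φ) (s56lk2_eqv_comp hφ hψ) y =
      s56lk2_push LH ψ hψ (s56lk2_push LH φ hφ y) := by
  obtain ⟨c, rfl⟩ := lvH2mk_surjective y
  rfl

theorem s56lk2_push_id (y : lvH2 LH A) :
    s56lk2_push LH (AddMonoidHom.id A) s56lk2_eqv_id y = y := by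
  obtain ⟨c, rfl⟩ := lvH2mk_surjective y
  rfl

end Push

section Prime

/-- A group of prime order is generated by any nonzero element. -/
theorem s56lk2_gen {Y : Type*} [AddCommGroup Y] {p : ℕ} (hp : p.Prime) (hY : Nat.card Y = p)
    {y₀ : Y} (h0 : y₀ ≠ 0) :
    (∀ y : Y, ∃ a : ℕ, y = a • y₀) ∧ ∀ a : ℕ, a • y₀ = 0 → p ∣ a := by
  haveI : Fact p.Prime := ⟨hp⟩
  have hfin : Finite Y := Nat.finite_of_card_ne_zero (by rw [hY]; exact hp.ne_zero)
  have hpy : p • y₀ = 0 := by rw [← hY]; exact card_nsmul_eq_zero'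
  have hinj := s56lk_zhom_injective hp y₀ hpy h0
  have hbij := hinj.bijective_of_nat_card_le (by rw [hY, Nat.card_zmod])
  refine ⟨fun y => ?_, fun a ha => ?_⟩
  · obtain ⟨k, hk⟩ := hbij.2 y
    haveI : NeZero p := ⟨hp.ne_zero⟩
    refine ⟨k.val, ?_⟩
    rw [← hk, ← s56lk_zhom_natCast p y₀ hpy, ZMod.natCast_zmod_val]
  · have hord : addOrderOf y₀ = p := addOrderOf_eq_prime hpy h0
    rw [← hord]
    exact addOrderOf_dvd_of_nsmul_eq_zero ha

/-- Endomorphisms of a group of prime order are scalars. -/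
theorem s56lk2_end_scalar {Z : Type*} [AddCommGroup Z] {p : ℕ} (hp : p.Prime)
    (hZ : Nat.card Z = p) (φ : Z →+ Z) : ∃ a : ℕ, ∀ z : Z, φ z = a • z := by
  have hfin : Finite Z := Nat.finite_of_card_ne_zero (by rw [hZ]; exact hp.ne_zero)
  have hnt : Nontrivial Z :=
    Finite.one_lt_card_iff_nontrivial.mp (by rw [hZ]; exact hp.one_lt)
  obtain ⟨z₀, hz₀⟩ := exists_ne (0 : Z)
  obtain ⟨hgen, -⟩ := s56lk2_gen hp hZ hz₀
  obtain ⟨a, ha⟩ := hgen (φ z₀)
  refine ⟨a, fun z => ?_⟩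
  obtain ⟨k, rfl⟩ := hgen z
  rw [map_nsmul, ha, smul_comm]

end Prime

section Decomp

theorem s56lk2_decomp_aux {p : ℕ} [hpf : Fact p.Prime] {N : Type*} [AddCommGroup N]
    [Module (ZMod p) N] [Finite N] {Z : Type*} [AddCommGroup Z] (hZ : Nat.card Z = p) :
    ∃ (d : ℕ) (inj : Fin d → (Z →+ N)) (prj : Fin d → (N →+ Z)),
      ∀ n : N, ∑ i, inj i (prj i n) = n := by
  classical
  have hp := hpf.out
  have hfin : Finite Z := Nat.finite_of_card_ne_zero (by rw [hZ]; exact hp.ne_zero)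
  have hnt : Nontrivial Z :=
    Finite.one_lt_card_iff_nontrivial.mp (by rw [hZ]; exact hp.one_lt)
  obtain ⟨z₀, hz₀⟩ := exists_ne (0 : Z)
  have hpz : p • z₀ = 0 := by rw [← hZ]; exact card_nsmul_eq_zero'
  have hinj := s56lk_zhom_injective hp z₀ hpz hz₀
  have hbij := hinj.bijective_of_nat_card_le (by rw [hZ, Nat.card_zmod])
  let e : ZMod p ≃+ Z := AddEquiv.ofBijective (s56lk_zhom p z₀ hpz) hbij
  haveI : Module.Finite (ZMod p) N := Module.Finite.of_finite
  let b := Module.finBasis (ZMod p) N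
  refine ⟨Module.finrank (ZMod p) N,
    fun i => ((LinearMap.toSpanSingleton (ZMod p) N (b i)).toAddMonoidHom).comp
      e.symm.toAddMonoidHom,
    fun i => e.toAddMonoidHom.comp (b.coord i).toAddMonoidHom, fun n => ?_⟩
  have : ∀ i, (((LinearMap.toSpanSingleton (ZMod p) N (b i)).toAddMonoidHom).comp
      e.symm.toAddMonoidHom) ((e.toAddMonoidHom.comp (b.coord i).toAddMonoidHom) n)
        = b.repr n i • b i := by
    intro i
    simp [LinearMap.toSpanSingleton_apply]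
  simp only [this]
  exact b.sum_repr n

/-- **Biproduct decomposition** of a finite elementary abelian `p`-group into copies of a group of
order `p`. -/
theorem s56lk2_decomp {p : ℕ} (hp : p.Prime) {N : Type*} [AddCommGroup N] [Finite N]
    (hN : ∀ n : N, p • n = 0) {Z : Type*} [AddCommGroup Z] (hZ : Nat.card Z = p) :
    ∃ (d : ℕ) (inj : Fin d → (Z →+ N)) (prj : Fin d → (N →+ Z)),
      ∀ n : N, ∑ i, inj i (prj i n) = n := by
  haveI : Fact p.Prime := ⟨hp⟩
  exact @s56lk2_decomp_aux p _ N _ (AddCommGroup.zmodModule hN) _ Z _ hZ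

end Decomp

end Fermat.Agent.S56
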